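/-
S33, block INST-GOOD (architect helper113), sub-block RES (sub-architect helper133).
RES-1: base change of the reduction relation `S28.Export.Red` along an extension of valued fields
`(K₀, O ∩ K₀) ⊆ (K, O)`.
-/
import Fermat.Agent.S28.Export.Red

set_option autoImplicit false

noncomputable section

namespace Fermat.Agent.S33.Inst.Good.Res

open ModularCurve Fermat.Agent.S28.Export

variable {K₀ K : Type*} [Field K₀] [Field K] [Algebra K₀ K] (O : ValuationSubring K)

/-- The inclusion `O ∩ K₀ → O`. -/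
def incO : O.comap (algebraMap K₀ K) →+* O where
  toFun x := ⟨algebraMap K₀ K (x : K₀), x.2⟩
  map_one' := Subtype.ext (map_one _)
  map_mul' x y := Subtype.ext (map_mul _ _ _)
  map_zero' := Subtype.ext (map_zero _)
  map_add' x y := Subtype.ext (map_add _ _ _)

@[simp] theorem coe_incO (x : O.comap (algebraMap K₀ K)) :
    ((incO O x : O) : K) = algebraMap K₀ K (x : K₀) := rfl

instance isLocalHom_incO : IsLocalHom (incO (K₀ := K₀) O) := by
  refine ⟨fun x hx => ?_⟩
  obtain ⟨y, hy⟩ := isUnit_iff_exists_inv.1 hx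
  have hy' : algebraMap K₀ K (x : K₀) * (y : K) = 1 := congrArg Subtype.val hy
  have hx0 : (x : K₀) ≠ 0 := by
    intro h0
    rw [h0, map_zero, zero_mul] at hy'
    exact zero_ne_one hy'
  have hinv : algebraMap K₀ K (x : K₀)⁻¹ = (y : K) := by
    rw [map_inv₀]
    exact inv_eq_of_mul_eq_one_right hy'
  have hmem : (x : K₀)⁻¹ ∈ O.comap (algebraMap K₀ K) := by
    rw [ValuationSubring.mem_comap, hinv]
    exact y.2
  exact isUnit_iff_exists_inv.2 ⟨⟨_, hmem⟩, Subtype.ext (mul_inv_cancel₀ hx0)⟩

/-- The map of residue fields `k₀ → k`. -/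
def kap : IsLocalRing.ResidueField (O.comap (algebraMap K₀ K)) →+* IsLocalRing.ResidueField O :=
  IsLocalRing.ResidueField.map (incO O)

theorem kap_residue (x : O.comap (algebraMap K₀ K)) :
    kap O (IsLocalRing.residue _ x) = IsLocalRing.residue O (incO O x) := rfl

/-- `iota ∘ incO = (K₀ → K) ∘ iota` on series. -/
theorem iota_coeffMap_incO (G : LaurentSeries (O.comap (algebraMap K₀ K))) :
    iota O (coeffMap (incO O) G) = coeffMap (algebraMap K₀ K) (iota _ G) := by
  ext n
  rfl

/-- `rho ∘ incO = kap ∘ rho` on series. -/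
theorem rho_coeffMap_incO (G : LaurentSeries (O.comap (algebraMap K₀ K))) :
    rho O (coeffMap (incO O) G) = coeffMap (kap O) (rho _ G) := by
  ext n
  rfl

variable {O}

/-- **Base change of reductions.** -/
theorem red_baseChange {f : LaurentSeries K₀}
    {g : LaurentSeries (IsLocalRing.ResidueField (O.comap (algebraMap K₀ K)))}
    (h : Red (O.comap (algebraMap K₀ K)) f g) :
    Red O (coeffMap (algebraMap K₀ K) f) (coeffMap (kap O) g) := by
  obtain ⟨G₁, G₂, h2, hf, hg⟩ := h
  refine ⟨coeffMap (incO O) G₁, coeffMap (incO O) G₂, ?_, ?_, ?_⟩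
  · rw [rho_coeffMap_incO]
    intro h0
    apply h2
    ext n
    have h1 := congrArg (fun z => z.coeff n) h0
    simp only [coeffMap_coeff, HahnSeries.coeff_zero] at h1
    rw [HahnSeries.coeff_zero]
    exact (map_eq_zero (kap O)).1 h1
  · rw [iota_coeffMap_incO, iota_coeffMap_incO, ← map_mul, hf]
  · rw [rho_coeffMap_incO, rho_coeffMap_incO, ← map_mul, hg]

end Fermat.Agent.S33.Inst.Good.Res

end
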