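/-
S33, block INST-GOOD, sub-block RES (sub-architect helper133).
RES-2: descent of `p`-th roots of Laurent series in characteristic `p` to a perfect subfield of the
coefficients.
-/
import Fermat.Agent.GAL.E.Frob

set_option autoImplicit false

namespace Fermat.Agent.S33.Inst.Good.Res

open ModularCurve

/-- `k₀ → k` fields of characteristic `p`, `k₀` perfect.  If `a ∈ k₀((q))` becomes a `p`-th power
`y ^ p` in `k((q))`, then `y` has coefficients in `k₀`.
(`y ^ p = ∑ y_n ^ p q ^ (p n)`, `GAL.E.pow_eq_qExpand_frobenius`-type lemma of `GAL/E/Frob.lean`; put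
`b_n = (a_{p n}) ^ (1/p)`; Frobenius of `k` is injective.) -/
theorem exists_root_descent {k₀ k : Type*} [Field k₀] [Field k] (φ : k₀ →+* k) (p : ℕ)
    [Fact p.Prime] [CharP k₀ p] [CharP k p] (hperf : ∀ c : k₀, ∃ d : k₀, d ^ p = c)
    {a : LaurentSeries k₀} {y : LaurentSeries k} (h : coeffMap φ a = y ^ p) :
    ∃ b : LaurentSeries k₀, coeffMap φ b = y ∧ b ^ p = a := by
  choose r hr using hperf
  have h1 : ∀ n : ℤ, φ (a.coeff ((p : ℤ) * n)) = y.coeff n ^ p := by
    intro n
    have h2 := congrArg (fun z : LaurentSeries k => z.coeff ((p : ℤ) * n)) h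
    simp only [coeffMap_coeff] at h2
    rw [h2, Fermat.Agent.GAL.E.pow_char_eq_qExpand p y, qExpand_coeff_mul, coeffMap_coeff,
      frobenius_def]
  have h3 : ∀ n : ℤ, φ (r (a.coeff ((p : ℤ) * n))) = y.coeff n := by
    intro n
    apply frobenius_inj k p
    rw [frobenius_def, frobenius_def, ← map_pow, hr, h1]
  have hsupp : Function.support (fun n : ℤ => r (a.coeff ((p : ℤ) * n))) = y.support := by
    ext n
    rw [Function.mem_support, HahnSeries.mem_support, ← h3 n, Ne, Ne, map_eq_zero]
  let b : LaurentSeries k₀ :=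
    ⟨fun n : ℤ => r (a.coeff ((p : ℤ) * n)), by rw [hsupp]; exact y.isPWO_support⟩
  have hb : coeffMap φ b = y := by
    ext n
    rw [coeffMap_coeff]
    exact h3 n
  refine ⟨b, hb, ?_⟩
  have hinj : Function.Injective (coeffMap φ) := by
    intro u v huv
    ext n
    apply φ.injective
    have := congrArg (fun z : LaurentSeries k => z.coeff n) huv
    simpa only [coeffMap_coeff] using this
  apply hinj
  rw [map_pow, hb, h]

end Fermat.Agent.S33.Inst.Good.Res
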