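/-
S33, block INST-GOOD, sub-block RES (sub-architect helper133).
RES-3: the abstract form of `depth1`.
-/
import Fermat.Agent.S33.Inst.Good.Res.Base
import Fermat.Agent.S33.Inst.Good.Res.Root
import Fermat.Agent.S33.Inst.Good.Desc
import Fermat.Agent.S28.Export.ResField

set_option autoImplicit false

namespace Fermat.Agent.S33.Inst.Good.Res

open ModularCurve Fermat.Agent.S28.Export

/-- `Desc.mem_adjoin_of_coeffMap_mem` for an arbitrary homomorphism of fields. -/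
theorem mem_adjoin_of_coeffMap_mem' {L L' : Type*} [Field L] [Field L'] (φ : L →+* L')
    (S : Set (LaurentSeries L)) {y : LaurentSeries L}
    (hy : coeffMap φ y ∈ IntermediateField.adjoin L' (coeffMap φ '' S)) :
    y ∈ IntermediateField.adjoin L S := by
  letI := φ.toAlgebra
  exact Desc.mem_adjoin_of_coeffMap_mem S hy

variable {K₀ K : Type*} [Field K₀] [Field K] [Algebra K₀ K] (O : ValuationSubring K)

local notation "O₀" => O.comap (algebraMap K₀ K)
local notation "k₀" => IsLocalRing.ResidueField (O.comap (algebraMap K₀ K))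
local notation "kk" => IsLocalRing.ResidueField O

/-- If `X`, `Y` have nonzero reductions and `Y = μ • X` then `μ` is a unit of `O` and
`Ȳ = μ̄ X̄`. -/
theorem exists_residue_smul {X Y : LaurentSeries K} {Xb Yb : LaurentSeries kk} (hX : Red O X Xb)
    (hY : Red O Y Yb) (hXb : Xb ≠ 0) (hYb : Yb ≠ 0) {μ : K} (h : Y = μ • X) :
    ∃ m : kk, m ≠ 0 ∧ Yb = m • Xb := by
  subst h
  have hμ : μ ∈ O := mem_of_red_smul hX hXb hY
  have h1 := hX.smul ⟨μ, hμ⟩
  have h2 : Yb = IsLocalRing.residue O ⟨μ, hμ⟩ • Xb := hY.unique h1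
  refine ⟨_, ?_, h2⟩
  intro h0
  rw [h0, zero_smul] at h2
  exact hYb h2

theorem Abs.C_mem {L : Type*} [Field L] (E : IntermediateField L (LaurentSeries L)) (c : L) :
    (HahnSeries.C c : LaurentSeries L) ∈ E := by
  have : (HahnSeries.C c : LaurentSeries L) = algebraMap L (LaurentSeries L) c :=
    (algebraMap_laurentSeries_eq_single L _).symm
  rw [this]
  exact E.algebraMap_mem _

theorem Abs.coeffMap_C {R R' : Type*} [CommRing R] [CommRing R'] (φ : R →+* R') (c : R) :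
    coeffMap φ (HahnSeries.C c : LaurentSeries R) = HahnSeries.C (φ c) := by
  change coeffMap φ (HahnSeries.single 0 c) = _
  rw [coeffMap_single]
  rfl

theorem Abs.coeffMap_injective {L L' : Type*} [Field L] [Field L'] (φ : L →+* L') :
    Function.Injective (coeffMap φ : LaurentSeries L → LaurentSeries L') := by
  intro x y h
  ext n
  have := congrArg (fun z : LaurentSeries L' => z.coeff n) h
  exact φ.injective this

theorem Abs.C_ne_zero {L : Type*} [Field L] {c : L} (hc : c ≠ 0) :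
    (HahnSeries.C c : LaurentSeries L) ≠ 0 := by
  intro h0
  apply hc
  have := congrArg (fun x => HahnSeries.coeff x 0) h0
  simpa using this

/-- **Abstract `depth1`.**  `u ∈ E₀ ⊆ K₀((q))`; over the big field `u = u₁ w ^ p` with `u₁ ≡ 1`.
Then `c g ^ p u ≡ 1` for suitable `c ∈ K₀ˣ`, `g ∈ E₀ˣ`.
Proof.  (1) `c₀ • u` has a nonzero reduction `ū ∈ k₀((q))` (`hG₀`), `λ • w` has a nonzero reduction
`w̄ ∈ resField O E` (`hG`).  (2) `ι (c₀ • u) = μ • (u₁ (λ • w) ^ p)`, so `κ ū = m w̄ ^ p`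
(`red_baseChange`, `exists_residue_smul`) `= (m' w̄) ^ p` (`hperf`).  (3) `exists_root_descent`:
`m' w̄ = κ b`, `b ^ p = ū`.  (4) `κ b ∈ resField O E ≤ k(κ S)`, so `b ∈ k₀(S) ≤ resField O₀ E₀`
(`mem_adjoin_of_coeffMap_mem'`): `b` is the reduction of some `g₀ ∈ E₀`.  (5) `g = g₀⁻¹`, `c = c₀`. -/
theorem exists_red_one (p : ℕ) [Fact p.Prime] [CharP k₀ p] [CharP kk p]
    (hperf₀ : ∀ c : k₀, ∃ d : k₀, d ^ p = c) (hperf : ∀ c : kk, ∃ d : kk, d ^ p = c)
    (E₀ : IntermediateField K₀ (LaurentSeries K₀)) (E : IntermediateField K (LaurentSeries K))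
    (hG₀ : IsGood O₀ E₀) (hG : IsGood O E) (S : Set (LaurentSeries k₀))
    (hS₀ : IntermediateField.adjoin k₀ S ≤ resField O₀ E₀)
    (hS : resField O E ≤ IntermediateField.adjoin kk (coeffMap (kap O) '' S))
    {u : LaurentSeries K₀} (hu : u ∈ E₀) {u₁ w : LaurentSeries K} (hw : w ∈ E) (hw0 : w ≠ 0)
    (h₁ : Red O u₁ 1) (h : coeffMap (algebraMap K₀ K) u = u₁ * w ^ p) :
    ∃ (c : K₀) (g : LaurentSeries K₀), c ≠ 0 ∧ g ∈ E₀ ∧ g ≠ 0 ∧ Red O₀ (c • (g ^ p * u)) 1 := by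
  have hp0 : p ≠ 0 := (Fact.out : p.Prime).ne_zero
  have hu₁0 : u₁ ≠ 0 := h₁.ne_zero one_ne_zero
  have hu0 : u ≠ 0 := by
    rintro rfl
    rw [map_zero] at h
    exact mul_ne_zero hu₁0 (pow_ne_zero p hw0) h.symm
  -- (1) normalisations
  obtain ⟨c₀, hc₀, ub, hub0, hub⟩ := hG₀ u hu hu0
  obtain ⟨l, hl, wb, hwb0, hwb⟩ := hG w hw hw0
  -- (2) comparison over the big field
  have hY : Red O (coeffMap (algebraMap K₀ K) (c₀ • u)) (coeffMap (kap O) ub) := red_baseChange hub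
  have hYb : coeffMap (kap O) ub ≠ 0 := by
    intro h0
    exact hub0 (Abs.coeffMap_injective (kap O) (by rw [h0, map_zero]))
  have hX : Red O (u₁ * (l • w) ^ p) (1 * wb ^ p) := h₁.mul (hwb.pow p)
  have hXb : (1 : LaurentSeries kk) * wb ^ p ≠ 0 := by
    rw [one_mul]
    exact pow_ne_zero p hwb0
  have hlC : (HahnSeries.C l : LaurentSeries K) ≠ 0 := Abs.C_ne_zero hl
  have hYX : coeffMap (algebraMap K₀ K) (c₀ • u) =
      (algebraMap K₀ K c₀ * (l ^ p)⁻¹) • (u₁ * (l • w) ^ p) := by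
    rw [smul_eq_C_mul, smul_eq_C_mul, smul_eq_C_mul, map_mul, Abs.coeffMap_C, h, map_mul, map_inv₀,
      map_pow, mul_pow]
    have hlp : (HahnSeries.C l : LaurentSeries K) ^ p ≠ 0 := pow_ne_zero p hlC
    calc HahnSeries.C (algebraMap K₀ K c₀) * (u₁ * w ^ p)
        = HahnSeries.C (algebraMap K₀ K c₀) * (u₁ * w ^ p) *
            ((HahnSeries.C l ^ p)⁻¹ * HahnSeries.C l ^ p) := by
          rw [inv_mul_cancel₀ hlp, mul_one]
      _ = _ := by ring
  obtain ⟨m, -, hm⟩ := exists_residue_smul O hX hY hXb hYb hYX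
  obtain ⟨m', hm'⟩ := hperf m
  have hroot : coeffMap (kap O) ub = (m' • wb) ^ p := by
    rw [hm, one_mul, smul_eq_C_mul, smul_eq_C_mul, mul_pow, ← map_pow, hm']
  -- (3) the root descends
  obtain ⟨b, hb, hbp⟩ := exists_root_descent (kap O) p hperf₀ hroot
  have hb0 : b ≠ 0 := by
    rintro rfl
    rw [zero_pow hp0] at hbp
    exact hub0 hbp.symm
  -- (4) it lies in the residue field of `E₀`
  have hwbE : wb ∈ resField O E := by
    refine ⟨l • w, ?_, hwb⟩
    rw [smul_eq_C_mul]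
    exact mul_mem (Abs.C_mem E l) hw
  have hmw : m' • wb ∈ resField O E := by
    rw [smul_eq_C_mul]
    exact mul_mem (Abs.C_mem _ m') hwbE
  have hbS : b ∈ IntermediateField.adjoin k₀ S := by
    apply mem_adjoin_of_coeffMap_mem' (kap O) S
    rw [hb]
    exact hS hmw
  obtain ⟨g₀, hg₀, hg₀b⟩ := hS₀ hbS
  have hg₀0 : g₀ ≠ 0 := hg₀b.ne_zero hb0
  -- (5) conclusion
  refine ⟨c₀, g₀⁻¹, hc₀, inv_mem hg₀, inv_ne_zero hg₀0, ?_⟩
  have h5 : Red O₀ (g₀⁻¹ ^ p * (c₀ • u)) (b⁻¹ ^ p * ub) := ((hg₀b.inv hb0).pow p).mul hub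
  have e1 : c₀ • (g₀⁻¹ ^ p * u) = g₀⁻¹ ^ p * (c₀ • u) := by
    rw [smul_eq_C_mul, smul_eq_C_mul]
    ring
  have e2 : b⁻¹ ^ p * ub = 1 := by
    rw [← hbp, inv_pow, inv_mul_cancel₀ (pow_ne_zero p hb0)]
  rw [e1, ← e2]
  exact h5

end Fermat.Agent.S33.Inst.Good.Res
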