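/-
S33, block INST-GOOD, sub-block RES (sub-architect helper133).
RES-4a: arithmetic of the residue fields of `A` and of `A ∩ K₀`.
-/
import Fermat.Agent.S33.Inst.Good.Res.Base
import Fermat.Agent.Lib.InertiaField.Residue

set_option autoImplicit false

namespace Fermat.Agent.S33.Inst.Good.Res

open ModularCurve

local notation "Kbar" => AlgebraicClosure ℚ

variable {p : ℕ} [Fact p.Prime] (A : ValuationSubring Kbar) (hA : A.LiesOverPrime p)
  (K₀ : IntermediateField ℚ Kbar)

private theorem arith_mem_nonunits_comap {L₀ L : Type*} [Field L₀] [Field L] (f : L₀ →+* L)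
    (B : ValuationSubring L) (x : L₀) : x ∈ (B.comap f).nonunits ↔ f x ∈ B.nonunits := by
  rw [ValuationSubring.mem_nonunits_iff_or, ValuationSubring.mem_nonunits_iff_or,
    ValuationSubring.mem_comap, map_inv₀, map_eq_zero]

private theorem arith_residue_eq_zero_iff {L : Type*} [Field L] (B : ValuationSubring L) (x : B) :
    IsLocalRing.residue B x = 0 ↔ (x : L) ∈ B.nonunits := by
  rw [IsLocalRing.residue_eq_zero_iff, ValuationSubring.coe_mem_nonunits_iff]

private theorem arith_charP {L : Type*} [Field L] (B : ValuationSubring L) {q : ℕ}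
    (hq : q.Prime) (hB : (q : L) ∈ B.nonunits) : CharP (IsLocalRing.ResidueField B) q := by
  obtain ⟨r, hr⟩ := CharP.exists (IsLocalRing.ResidueField B)
  have h0 : ((q : ℕ) : IsLocalRing.ResidueField B) = 0 := by
    rw [← map_natCast (IsLocalRing.residue B), arith_residue_eq_zero_iff]
    simpa using hB
  have hdvd : r ∣ q := (CharP.cast_eq_zero_iff _ r q).mp h0
  rcases (Nat.dvd_prime hq).mp hdvd with h1 | h1
  · exact absurd h1 (CharP.char_ne_one (IsLocalRing.ResidueField B) r)
  · rwa [h1] at hr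

include hA in
theorem liesOver_comap : (A.comap (algebraMap K₀ Kbar)).LiesOverPrime p := by
  show (p : K₀) ∈ (A.comap (algebraMap K₀ Kbar)).nonunits
  rw [arith_mem_nonunits_comap, map_natCast]
  exact hA

include hA in
theorem charP_residue : CharP (IsLocalRing.ResidueField A) p :=
  arith_charP A Fact.out hA

include hA in
theorem charP_residue_comap :
    CharP (IsLocalRing.ResidueField (A.comap (algebraMap K₀ Kbar))) p :=
  arith_charP _ Fact.out (liesOver_comap A hA K₀)

/-- the residue field of `A` is closed under `p`-th roots (`ℚ̄` is algebraically closed, `A` is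
integrally closed) -/
theorem perfect_residue : ∀ c : IsLocalRing.ResidueField A, ∃ d, d ^ p = c := by
  intro c
  have hp : p.Prime := Fact.out
  obtain ⟨x, rfl⟩ := IsLocalRing.residue_surjective c
  obtain ⟨y, hy⟩ := IsAlgClosed.exists_pow_nat_eq (x : Kbar) hp.pos
  have hyA : y ∈ A := by
    rcases A.mem_or_inv_mem y with h | h
    · exact h
    · by_cases hy0 : y = 0
      · rw [hy0]; exact A.zero_mem
      · have e : y = y ^ p * y⁻¹ ^ (p - 1) := by
          rw [← pow_sub_one_mul hp.ne_zero y, inv_pow, mul_comm (y ^ (p - 1)) y, mul_assoc,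
            mul_inv_cancel₀ (pow_ne_zero _ hy0), mul_one]
        rw [e, hy]
        exact A.mul_mem _ _ x.2 (pow_mem h _)
  refine ⟨IsLocalRing.residue A ⟨y, hyA⟩, ?_⟩
  rw [← map_pow]
  congr 1
  exact Subtype.ext hy

include hA in
/-- the residue field of `A ∩ K₀` is perfect: it is algebraic over `𝔽_p`
(`Lib.InertiaField.exists_pow_sub_one_mem`: `c ^ n = 1` with `p ∤ n`; `p ^ r ≡ 1 mod n`, `r ≥ 1`;
`d = c ^ (p ^ (r - 1))`; compare `S33/Cech/Mod/ArithNF.lean`). -/
theorem perfect_residue_comap :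
    ∀ c : IsLocalRing.ResidueField (A.comap (algebraMap K₀ Kbar)), ∃ d, d ^ p = c := by
  intro c
  have hp : p.Prime := Fact.out
  by_cases hc0 : c = 0
  · exact ⟨0, by rw [hc0, zero_pow hp.ne_zero]⟩
  obtain ⟨x, rfl⟩ := IsLocalRing.residue_surjective c
  have hxA : algebraMap K₀ Kbar (x : K₀) ∈ A := x.2
  have hxu : algebraMap K₀ Kbar (x : K₀) ∉ A.nonunits := by
    intro h
    apply hc0
    rw [arith_residue_eq_zero_iff, arith_mem_nonunits_comap]
    exact h
  obtain ⟨n, hpn, hn⟩ := Fermat.Agent.Lib.InertiaField.exists_pow_sub_one_mem A p hp hA hxA hxu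
  -- `c ^ n = 1`
  have hcn : IsLocalRing.residue (A.comap (algebraMap K₀ Kbar)) x ^ n = 1 := by
    rw [← sub_eq_zero, ← map_pow, ← map_one (IsLocalRing.residue (A.comap (algebraMap K₀ Kbar))),
      ← map_sub, arith_residue_eq_zero_iff, arith_mem_nonunits_comap]
    simpa using hn
  have hn0 : n ≠ 0 := fun h => hpn (h ▸ dvd_zero p)
  have hcop : Nat.Coprime p n := (Nat.Prime.coprime_iff_not_dvd hp).mpr hpn
  have hmod : p ^ Nat.totient n ≡ 1 [MOD n] := Nat.ModEq.pow_totient hcop
  have hr : 0 < Nat.totient n := Nat.totient_pos.mpr (Nat.pos_of_ne_zero hn0)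
  obtain ⟨k, hk⟩ : n ∣ p ^ Nat.totient n - 1 :=
    (Nat.modEq_iff_dvd' (Nat.one_le_pow _ _ hp.pos)).mp hmod.symm
  have hpow : p ^ Nat.totient n = n * k + 1 := by
    have := Nat.one_le_pow (Nat.totient n) p hp.pos
    omega
  refine ⟨IsLocalRing.residue (A.comap (algebraMap K₀ Kbar)) x ^ (p ^ (Nat.totient n - 1)), ?_⟩
  rw [← pow_mul, ← pow_succ, Nat.sub_add_cancel hr, hpow, pow_succ, pow_mul, hcn, one_pow, one_mul]

end Fermat.Agent.S33.Inst.Good.Res
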