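/-
S33, block INST-GOOD, sub-block RES (sub-architect helper133).
RES-4b: the residue fields of the Gauss valuations of `FK K₀ M` and of `FN M` are generated by the
same two series `j̄`, `ū` (from `S28/Export`: `resField_bigK`, `bigK_eq_full`, `exists_good_UData`).
-/
import Fermat.Agent.S33.Inst.Good.Res.Arith
import Fermat.Agent.S28.Export.Main
import Fermat.Agent.S18.Gauss.Field

set_option autoImplicit false

namespace Fermat.Agent.S33.Inst.Good.Res

open ModularCurve Fermat.Agent.S28 Fermat.Agent.S28.Export Fermat.Agent.S18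

local notation "Kbar" => AlgebraicClosure ℚ

variable {M p : ℕ} [NeZero M] [Fact p.Prime] (A : ValuationSubring Kbar) (hA : A.LiesOverPrime p)
  (K₀ : IntermediateField ℚ Kbar)

/-- the series `ū` over the two residue fields correspond -/
theorem kap_uk (D : UData M p) :
    coeffMap (kap A) (uk (A.comap (algebraMap K₀ Kbar)) D (liesOver_comap A hA K₀)) =
      uk A D hA := by
  unfold uk uO Fermat.Agent.S18.Vert.uS
  rw [coeffMap_coeffMap, coeffMap_coeffMap, coeffMap_coeffMap]
  refine coeffMap_congr ?_ _
  ext x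
  show IsLocalRing.residue A (incO A (Fermat.Agent.S18.Vert.zlTo _ (liesOver_comap A hA K₀) x)) =
    IsLocalRing.residue A (Fermat.Agent.S18.Vert.zlTo A hA x)
  exact congrArg _ (Subtype.ext (map_ratCast (algebraMap K₀ Kbar) (x : ℚ)))

include hA in
theorem isGood_FK (hpM : ¬ p ∣ M) : IsGood (A.comap (algebraMap K₀ Kbar)) (FK K₀ M) := by
  obtain ⟨D, -, -⟩ := exists_good_UData M p hpM
  rw [Gauss.FK_eq_full]
  exact isGood_full _ D (liesOver_comap A hA K₀)

include hA in
theorem isGood_bar (hpM : ¬ p ∣ M) : IsGood A (modularFunctionFieldBar M) := by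
  obtain ⟨D, -, -⟩ := exists_good_UData M p hpM
  rw [bar_eq_full]
  exact isGood_full A D hA

include hA in
/-- common generators of the two residue fields -/
theorem exists_gens (hpM : ¬ p ∣ M) :
    ∃ S : Set (LaurentSeries (IsLocalRing.ResidueField (A.comap (algebraMap K₀ Kbar)))),
      IntermediateField.adjoin _ S ≤ resField (A.comap (algebraMap K₀ Kbar)) (FK K₀ M) ∧
      resField A (modularFunctionFieldBar M) ≤
        IntermediateField.adjoin _ (coeffMap (kap A) '' S) := by
  obtain ⟨D, -, hu⟩ := exists_good_UData M p hpM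
  have h₀ := liesOver_comap A hA K₀
  refine ⟨{jqModC _, uk (A.comap (algebraMap K₀ Kbar)) D h₀}, ?_, ?_⟩
  · rw [Gauss.FK_eq_full, ← bigK_eq_full (A.comap (algebraMap K₀ Kbar)) D h₀ hu, resField_bigK]
    exact le_rfl
  · rw [bar_eq_full, ← bigK_eq_full A D hA hu, resField_bigK, Set.image_pair, coeffMap_jqModC,
      kap_uk A hA K₀ D]
    exact le_rfl

end Fermat.Agent.S33.Inst.Good.Res
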