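/-
S33, block INST-GOOD, sub-block RES (sub-architect helper133).
RES-5: **`depth1`**: every `K₀`-rational representative of a class of `K_∞` is `≡ 1` after
multiplication by a constant of `K₀` and a `p`-th power of `FK K₀ M`.
-/
import Fermat.Agent.S33.Inst.Good.Res.Abs
import Fermat.Agent.S33.Inst.Good.Res.Mod
import Fermat.Agent.S18.Descent.HorizontalBC
import Fermat.Agent.C1.Defs

set_option autoImplicit false

namespace Fermat.Agent.S33.Inst.Good.Res

open ModularCurve Fermat.Agent.S28.Export Fermat.Agent.S18 Fermat.Agent.S24 Fermat.Agent.C1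

variable {M p : ℕ} [NeZero M] [Fact p.Prime] (A : ValuationSubring Kbar)
  (K₀ : IntermediateField ℚ Kbar)

variable {A} in
theorem red_one_of_cong1 {u₁ : FN M} (h : Cong1 A M u₁) : Red A (u₁ : LaurentSeries Kbar) 1 := by
  obtain ⟨P, Q, hP, hQ, hPQ, hne, rfl⟩ := h
  have h1 := (red_iota P).div (red_iota Q) hne
  have e : rho A P / rho A Q = 1 := by
    rw [show rho A P = rho A Q from hPQ]
    exact div_self hne
  rw [e] at h1
  exact h1

/-- **`depth1`, in the language of `S28.Export.Red`.** -/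
theorem depth1_red (hpM : ¬ p ∣ M) (hA : A.LiesOverPrime p) (u : FK K₀ M) (u₁ w : FN M)
    (h₁ : Cong1 A M u₁) (hw : w ≠ 0)
    (hu : Descent.toBar (modularFunctionFieldFull M) K₀ u = u₁ * w ^ p) :
    ∃ (c : K₀) (g : FK K₀ M), c ≠ 0 ∧ g ≠ 0 ∧
      Red (A.comap (algebraMap K₀ Kbar))
        ((algebraMap K₀ (FK K₀ M) c * g ^ p * u : FK K₀ M) : LaurentSeries K₀) 1 := by
  have := charP_residue A hA
  have := charP_residue_comap A hA K₀
  obtain ⟨S, hS0, hS⟩ := exists_gens (M := M) A hA K₀ hpM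
  have hw0 : (w : LaurentSeries Kbar) ≠ 0 := fun h => hw (Subtype.ext h)
  have h : coeffMap (algebraMap K₀ Kbar) (u : LaurentSeries K₀) =
      (u₁ : LaurentSeries Kbar) * (w : LaurentSeries Kbar) ^ p := congrArg Subtype.val hu
  obtain ⟨c, g, hc, hgE, hg0, hred⟩ := exists_red_one A p (perfect_residue_comap A hA K₀)
    (perfect_residue A) (FK K₀ M) (modularFunctionFieldBar M) (isGood_FK A hA K₀ hpM)
    (isGood_bar A hA hpM) S hS0 hS u.2 w.2 hw0 (red_one_of_cong1 h₁) h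
  refine ⟨c, ⟨g, hgE⟩, hc, fun h => hg0 (congrArg Subtype.val h), ?_⟩
  have e : ((algebraMap K₀ (FK K₀ M) c * (⟨g, hgE⟩ : FK K₀ M) ^ p * u : FK K₀ M) :
      LaurentSeries K₀) = c • (g ^ p * (u : LaurentSeries K₀)) := by
    rw [smul_eq_C_mul, mul_assoc, HahnSeries.C_apply, ← algebraMap_laurentSeries_eq_single]
    rfl
  rw [e]
  exact hred

/-- a series of a field with normal forms which reduces to `1` is `≡ 1` for the Gauss valuation -/
theorem sub_one_div_mem_of_red {K : Type*} [Field K] {A₀ : ValuationSubring K} {ϖ₀ : K}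
    {L : IntermediateField K (LaurentSeries K)} {Ow : ValuationSubring L} (h₀ : IsUnif A₀ ϖ₀)
    (hL : Gauss.HasNf A₀ ϖ₀ L) (hG : IsGauss A₀ ϖ₀ L Ow) {f : L}
    (hf : Red A₀ (f : LaurentSeries K) 1) : (f - 1) / algebraMap K L ϖ₀ ∈ Ow := by
  have hgood : IsGood A₀ L := hL.isGood h₀
  have hOw : Ow = gaussRing A₀ L hgood := hG.eq_of_hasNf hL (Gauss.isGauss_gaussRing h₀ hgood)
  by_cases hf1 : f - 1 = 0
  · rw [hf1, zero_div]
    exact Ow.zero_mem
  have hnon : f - 1 ∈ Ow.nonunits := by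
    rw [hOw, mem_nonunits_gaussRing_iff]
    have h1 := hf.sub red_one
    rw [sub_self] at h1
    exact h1
  refine hG.unif.div_mem (ValuationSubring.nonunits_subset hnon) fun hinv => ?_
  rw [ValuationSubring.mem_nonunits_iff] at hnon
  have h1 := (Ow.valuation_le_one_iff _).mpr hinv
  rw [map_inv₀, inv_le_one₀ (zero_lt_iff.mpr ((Valuation.ne_zero_iff _).mpr hf1))] at h1
  exact absurd hnon (not_lt.mpr h1)

/-- **`depth1`, in the language of `S18.IsGauss`.** -/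
theorem depth1_isGauss (hpM : ¬ p ∣ M) (hA : A.LiesOverPrime p) {ϖ₀ : K₀}
    (h₀ : IsUnif (A.comap (algebraMap K₀ Kbar)) ϖ₀) {Ow : ValuationSubring (FK K₀ M)}
    (hG : IsGauss (A.comap (algebraMap K₀ Kbar)) ϖ₀ (FK K₀ M) Ow) (u : FK K₀ M) (u₁ w : FN M)
    (h₁ : Cong1 A M u₁) (hw : w ≠ 0)
    (hu : Descent.toBar (modularFunctionFieldFull M) K₀ u = u₁ * w ^ p) :
    ∃ (c : K₀) (g : FK K₀ M), c ≠ 0 ∧ g ≠ 0 ∧
      (algebraMap K₀ (FK K₀ M) c * g ^ p * u - 1) / algebraMap K₀ (FK K₀ M) ϖ₀ ∈ Ow := by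
  obtain ⟨c, g, hc, hg, h⟩ := depth1_red A K₀ hpM hA u u₁ w h₁ hw hu
  exact ⟨c, g, hc, hg, sub_one_div_mem_of_red h₀ (Gauss.hasNf_FK h₀ M) hG h⟩

end Fermat.Agent.S33.Inst.Good.Res
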